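import Mathlib

/-!
# Shapes of Young diagrams

Finite lower sets of `ℕ × ℕ`: row and column lengths, corners and the cells that may be added.
-/

set_option autoImplicit false

noncomputable section

namespace FA.YoungHook

open Finset Classical

/-- A finite lower set of `ℕ × ℕ`. -/
def IsShape (S : Finset (ℕ × ℕ)) : Prop := IsLowerSet (S : Set (ℕ × ℕ))

/-- The length of a row. -/
def rlen (S : Finset (ℕ × ℕ)) (i : ℕ) : ℕ := (S.filter fun d => d.1 = i).card

/-- The length of a column. -/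
def clen (S : Finset (ℕ × ℕ)) (j : ℕ) : ℕ := (S.filter fun d => d.2 = j).card

/-- A corner: a cell with nothing to its right or below. -/
def IsCorner (S : Finset (ℕ × ℕ)) (c : ℕ × ℕ) : Prop :=
  c ∈ S ∧ (c.1 + 1, c.2) ∉ S ∧ (c.1, c.2 + 1) ∉ S

/-- The corners of a shape. -/
def corners (S : Finset (ℕ × ℕ)) : Finset (ℕ × ℕ) := S.filter (IsCorner S)

/-- The hook length of a cell, less one, as arm plus leg. -/
def armLeg (S : Finset (ℕ × ℕ)) (d : ℕ × ℕ) : ℕ := (rlen S d.1 - d.2 - 1) + (clen S d.2 - d.1 - 1)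

variable {S : Finset (ℕ × ℕ)}

lemma mem_corners {c : ℕ × ℕ} : c ∈ corners S ↔ IsCorner S c :=
  ⟨fun h => (mem_filter.1 h).2, fun h => mem_filter.2 ⟨h.1, h⟩⟩

lemma IsShape.down (h : IsShape S) {c d : ℕ × ℕ} (hd : d ∈ S) (h1 : c.1 ≤ d.1) (h2 : c.2 ≤ d.2) :
    c ∈ S :=
  mem_coe.1 (h (show c ≤ d from ⟨h1, h2⟩) (mem_coe.2 hd))

lemma mem_iff_rlen (h : IsShape S) {i j : ℕ} : (i, j) ∈ S ↔ j < rlen S i := by
  constructor
  · intro hm
    have hsub : (range (j + 1)).image (fun k => (i, k)) ⊆ S.filter fun d => d.1 = i := by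
      intro d hd
      obtain ⟨k, hk, rfl⟩ := mem_image.1 hd
      exact mem_filter.2 ⟨h.down hm le_rfl (Nat.lt_succ_iff.1 (mem_range.1 hk)), rfl⟩
    have := card_le_card hsub
    rw [card_image_of_injective _ (Prod.mk_right_injective i), card_range] at this
    unfold rlen
    omega
  · intro hlt
    by_contra hm
    have hsub : S.filter (fun d => d.1 = i) ⊆ (range j).image fun k => (i, k) := by
      intro d hd
      obtain ⟨hd1, hd2⟩ := mem_filter.1 hd
      refine mem_image.2 ⟨d.2, mem_range.2 ?_, Prod.ext hd2.symm rfl⟩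
      by_contra hle
      exact hm (h.down hd1 hd2.ge (Nat.le_of_not_lt hle))
    have := card_le_card hsub
    rw [card_image_of_injective _ (Prod.mk_right_injective i), card_range] at this
    unfold rlen at hlt
    omega

lemma mem_iff_clen (h : IsShape S) {i j : ℕ} : (i, j) ∈ S ↔ i < clen S j := by
  constructor
  · intro hm
    have hsub : (range (i + 1)).image (fun k => (k, j)) ⊆ S.filter fun d => d.2 = j := by
      intro d hd
      obtain ⟨k, hk, rfl⟩ := mem_image.1 hd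
      exact mem_filter.2 ⟨h.down hm (Nat.lt_succ_iff.1 (mem_range.1 hk)) le_rfl, rfl⟩
    have := card_le_card hsub
    rw [card_image_of_injective _ (Prod.mk_left_injective j), card_range] at this
    unfold clen
    omega
  · intro hlt
    by_contra hm
    have hsub : S.filter (fun d => d.2 = j) ⊆ (range i).image fun k => (k, j) := by
      intro d hd
      obtain ⟨hd1, hd2⟩ := mem_filter.1 hd
      refine mem_image.2 ⟨d.1, mem_range.2 ?_, Prod.ext rfl hd2.symm⟩
      by_contra hle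
      exact hm (h.down hd1 (Nat.le_of_not_lt hle) hd2.ge)
    have := card_le_card hsub
    rw [card_image_of_injective _ (Prod.mk_left_injective j), card_range] at this
    unfold clen at hlt
    omega

lemma rlen_anti (h : IsShape S) {i k : ℕ} (hik : i ≤ k) : rlen S k ≤ rlen S i := by
  by_contra hlt
  have h1 : (k, rlen S i) ∈ S := (mem_iff_rlen h).2 (Nat.lt_of_not_le hlt)
  exact lt_irrefl _ ((mem_iff_rlen h).1 (h.down (c := (i, rlen S i)) h1 hik le_rfl))

lemma clen_anti (h : IsShape S) {j k : ℕ} (hjk : j ≤ k) : clen S k ≤ clen S j := by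
  by_contra hlt
  have h1 : (clen S j, k) ∈ S := (mem_iff_clen h).2 (Nat.lt_of_not_le hlt)
  exact lt_irrefl _ ((mem_iff_clen h).1 (h.down (c := (clen S j, j)) h1 le_rfl hjk))

lemma IsCorner.maximal (h : IsShape S) {c : ℕ × ℕ} (hc : IsCorner S c) {d : ℕ × ℕ} (hd : d ∈ S)
    (h1 : c.1 ≤ d.1) (h2 : c.2 ≤ d.2) : d = c := by
  by_contra hne
  rcases Nat.lt_or_ge c.1 d.1 with h3 | h3
  · exact hc.2.1 (h.down hd h3 h2)
  · refine hc.2.2 (h.down hd h1 ?_)
    rcases Nat.lt_or_ge c.2 d.2 with h4 | h4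
    · exact h4
    · exact absurd (Prod.ext (le_antisymm h3 h1) (le_antisymm h4 h2)) hne

lemma isShape_erase (h : IsShape S) {c : ℕ × ℕ} (hc : IsCorner S c) : IsShape (S.erase c) := by
  intro a b hba ha
  obtain ⟨hne, haS⟩ := mem_erase.1 (mem_coe.1 ha)
  refine mem_coe.2 (mem_erase.2 ⟨fun he => hne ?_, h.down haS hba.1 hba.2⟩)
  subst he
  exact hc.maximal h haS hba.1 hba.2

lemma IsCorner.rlen_eq (h : IsShape S) {c : ℕ × ℕ} (hc : IsCorner S c) : rlen S c.1 = c.2 + 1 := by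
  have h1 := (mem_iff_rlen h (i := c.1) (j := c.2)).1 hc.1
  have h2 : ¬c.2 + 1 < rlen S c.1 := fun hh => hc.2.2 ((mem_iff_rlen h).2 hh)
  omega

lemma IsCorner.clen_eq (h : IsShape S) {c : ℕ × ℕ} (hc : IsCorner S c) : clen S c.2 = c.1 + 1 := by
  have h1 := (mem_iff_clen h (i := c.1) (j := c.2)).1 hc.1
  have h2 : ¬c.1 + 1 < clen S c.2 := fun hh => hc.2.1 ((mem_iff_clen h).2 hh)
  omega

lemma armLeg_eq (h : IsShape S) {d : ℕ × ℕ} (hd : d ∈ S) :
    (armLeg S d : ℤ) = rlen S d.1 - d.2 + clen S d.2 - d.1 - 2 := by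
  have h1 := (mem_iff_rlen h (i := d.1) (j := d.2)).1 hd
  have h2 := (mem_iff_clen h (i := d.1) (j := d.2)).1 hd
  unfold armLeg
  omega

lemma isCorner_of_armLeg (h : IsShape S) {d : ℕ × ℕ} (hd : d ∈ S) (h0 : armLeg S d = 0) :
    IsCorner S d := by
  have h1 := armLeg_eq h hd
  have h2 := (mem_iff_rlen h (i := d.1) (j := d.2)).1 hd
  have h3 := (mem_iff_clen h (i := d.1) (j := d.2)).1 hd
  refine ⟨hd, fun hm => ?_, fun hm => ?_⟩
  · have := (mem_iff_clen h).1 hm; omega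
  · have := (mem_iff_rlen h).1 hm; omega

lemma card_hook (h : IsShape S) {d : ℕ × ℕ} (hd : d ∈ S) :
    (S.filter fun e => (e.1 = d.1 ∧ d.2 ≤ e.2) ∨ (e.2 = d.2 ∧ d.1 ≤ e.1)).card =
      armLeg S d + 1 := by
  have hset : S.filter (fun e => (e.1 = d.1 ∧ d.2 ≤ e.2) ∨ (e.2 = d.2 ∧ d.1 ≤ e.1)) =
      (Ico d.2 (rlen S d.1)).image (fun k => (d.1, k)) ∪
        (Ioo d.1 (clen S d.2)).image fun k => (k, d.2) := by
    ext ⟨a, b⟩
    simp only [mem_filter, mem_union, mem_image, mem_Ico, mem_Ioo, Prod.mk.injEq]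
    constructor
    · rintro ⟨hm, ⟨rfl, hb⟩ | ⟨rfl, ha⟩⟩
      · exact Or.inl ⟨b, ⟨hb, (mem_iff_rlen h).1 hm⟩, rfl, rfl⟩
      · rcases eq_or_lt_of_le ha with rfl | ha'
        · exact Or.inl ⟨d.2, ⟨le_rfl, (mem_iff_rlen h).1 hm⟩, rfl, rfl⟩
        · exact Or.inr ⟨a, ⟨ha', (mem_iff_clen h).1 hm⟩, rfl, rfl⟩
    · rintro (⟨k, ⟨h1, h2⟩, rfl, rfl⟩ | ⟨k, ⟨h1, h2⟩, rfl, rfl⟩)
      · exact ⟨(mem_iff_rlen h).2 h2, Or.inl ⟨rfl, h1⟩⟩
      · exact ⟨(mem_iff_clen h).2 h2, Or.inr ⟨rfl, h1.le⟩⟩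
  have h1 := (mem_iff_rlen h (i := d.1) (j := d.2)).1 hd
  have h2 := (mem_iff_clen h (i := d.1) (j := d.2)).1 hd
  rw [hset, card_union_of_disjoint, card_image_of_injective _ (Prod.mk_right_injective _),
    card_image_of_injective _ (Prod.mk_left_injective _), Nat.card_Ico, Nat.card_Ioo]
  · unfold armLeg; omega
  · rw [disjoint_left]
    intro e he1 he2
    obtain ⟨k, _, rfl⟩ := mem_image.1 he1
    obtain ⟨l, hl, he⟩ := mem_image.1 he2
    have := (Prod.ext_iff.1 he).1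
    simp only at this
    exact (mem_Ioo.1 hl).1.ne this.symm

lemma rlen_erase (c : ℕ × ℕ) (hc : c ∈ S) (i : ℕ) :
    rlen (S.erase c) i = rlen S i - if i = c.1 then 1 else 0 := by
  unfold rlen
  rw [filter_erase]
  split_ifs with hi
  · rw [card_erase_of_mem (mem_filter.2 ⟨hc, hi.symm⟩)]
  · rw [erase_eq_of_notMem (fun hm => hi (mem_filter.1 hm).2.symm), Nat.sub_zero]

lemma clen_erase (c : ℕ × ℕ) (hc : c ∈ S) (j : ℕ) :
    clen (S.erase c) j = clen S j - if j = c.2 then 1 else 0 := by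
  unfold clen
  rw [filter_erase]
  split_ifs with hi
  · rw [card_erase_of_mem (mem_filter.2 ⟨hc, hi.symm⟩)]
  · rw [erase_eq_of_notMem (fun hm => hi (mem_filter.1 hm).2.symm), Nat.sub_zero]

end FA.YoungHook
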