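import Fermat.Agent.YoungHook.Walk

/-!
# Standard Young tableaux

Their number satisfies the recursion on the cell of the largest entry; with the hook walk this
gives the hook length formula, and with a count of corners the sum of the squares is `n!`.
-/

set_option autoImplicit false

noncomputable section

namespace FA.YoungHook

open Finset Classical

/-- The standard tableaux of a shape with `m` cells. -/
abbrev Tableau (S : Finset (ℕ × ℕ)) (m : ℕ) := {T : S ≃ Fin m // StrictMono T}

/-- The number of standard tableaux. -/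
def tabCount (S : Finset (ℕ × ℕ)) : ℕ := Nat.card (Tableau S S.card)

variable {S : Finset (ℕ × ℕ)}

lemma tabCount_eq {m : ℕ} (hm : S.card = m) : tabCount S = Nat.card (Tableau S m) := by
  subst hm; rfl

lemma tabCount_empty : tabCount (∅ : Finset (ℕ × ℕ)) = 1 := by
  rw [tabCount_eq card_empty, Nat.card_eq_one_iff_unique]
  refine ⟨⟨fun a b => Subtype.ext (Equiv.ext fun x => absurd x.2 (notMem_empty _))⟩,
    ⟨⟨⟨fun x => absurd x.2 (notMem_empty _), fun i => Fin.elim0 i,
      fun x => absurd x.2 (notMem_empty _), fun i => Fin.elim0 i⟩,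
      fun a => absurd a.2 (notMem_empty _)⟩⟩⟩

/-- The cell of the largest entry. -/
def topCell {m : ℕ} (T : Tableau S (m + 1)) : ℕ × ℕ := (T.1.symm (Fin.last m)).1

lemma topCell_isCorner {m : ℕ} (T : Tableau S (m + 1)) : IsCorner S (topCell T) := by
  set x := T.1.symm (Fin.last m) with hx
  have hmax : ∀ y : S, ¬x < y := by
    intro y hy
    have := T.2 hy
    rw [hx, Equiv.apply_symm_apply] at this
    exact not_lt.2 (Fin.le_last _) this
  refine ⟨x.2, fun hm => hmax ⟨_, hm⟩ ?_, fun hm => hmax ⟨_, hm⟩ ?_⟩
  · exact Subtype.coe_lt_coe.1 (Prod.mk_lt_mk.2 (Or.inl ⟨Nat.lt_succ_self _, le_rfl⟩))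
  · exact Subtype.coe_lt_coe.1 (Prod.mk_lt_mk.2 (Or.inr ⟨le_rfl, Nat.lt_succ_self _⟩))

lemma card_topCell {m : ℕ} (hS : IsShape S) {c : ℕ × ℕ} (hc : IsCorner S c) :
    Nat.card {T : Tableau S (m + 1) // topCell T = c} = Nat.card (Tableau (S.erase c) m) := by
  set c' : S := ⟨c, hc.1⟩ with hc'
  have htop : ∀ T : {T : Tableau S (m + 1) // topCell T = c}, T.1.1 c' = Fin.last m := by
    intro T
    have h1 : T.1.1.symm (Fin.last m) = c' := Subtype.ext T.2
    rw [← h1, Equiv.apply_symm_apply]
  have hne : ∀ (T : {T : Tableau S (m + 1) // topCell T = c}) (y : (S.erase c : Finset _)),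
      T.1.1 ⟨y.1, (mem_erase.1 y.2).2⟩ ≠ Fin.last m := by
    intro T y he
    rw [← htop T] at he
    exact (mem_erase.1 y.2).1 (congrArg Subtype.val (T.1.1.injective he))
  have hsymm : ∀ (T : {T : Tableau S (m + 1) // topCell T = c}) (i : Fin m),
      (T.1.1.symm i.castSucc).1 ∈ S.erase c := by
    intro T i
    refine mem_erase.2 ⟨fun he => ?_, (T.1.1.symm i.castSucc).2⟩
    have h1 : T.1.1.symm i.castSucc = c' := Subtype.ext he
    have h2 := htop T
    rw [← h1, Equiv.apply_symm_apply] at h2
    exact (Fin.castSucc_lt_last i).ne h2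
  let down : {T : Tableau S (m + 1) // topCell T = c} → Tableau (S.erase c) m := fun T =>
    ⟨{ toFun := fun y => (T.1.1 ⟨y.1, (mem_erase.1 y.2).2⟩).castPred (hne T y)
       invFun := fun i => ⟨(T.1.1.symm i.castSucc).1, hsymm T i⟩
       left_inv := fun y => Subtype.ext (by simp)
       right_inv := fun i => by simp },
      fun y z hyz => by
        simp only [Equiv.coe_fn_mk]
        exact Fin.castPred_lt_castPred_iff.2 (T.1.2 (Subtype.coe_lt_coe.1 hyz))⟩
  refine Nat.card_eq_of_bijective down ⟨?_, ?_⟩
  · intro T U he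
    refine Subtype.ext (Subtype.ext (Equiv.ext fun x => ?_))
    by_cases hx : x.1 = c
    · have : x = c' := Subtype.ext hx
      rw [this, htop, htop]
    · have h1 := congrArg (fun A : Tableau (S.erase c) m => A.1 ⟨x.1, mem_erase.2 ⟨hx, x.2⟩⟩) he
      simp only [down, Equiv.coe_fn_mk, Fin.castPred_inj] at h1
      exact h1
  · intro A
    let e : S ≃ Fin (m + 1) :=
      { toFun := fun x => if hx : x.1 = c then Fin.last m
          else (A.1 ⟨x.1, mem_erase.2 ⟨hx, x.2⟩⟩).castSucc
        invFun := fun i => if hi : i = Fin.last m then c'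
          else ⟨(A.1.symm (i.castPred hi)).1, (mem_erase.1 (A.1.symm (i.castPred hi)).2).2⟩
        left_inv := fun x => by
          by_cases hx : x.1 = c
          · simp [hx, hc', Subtype.ext_iff]
          · simp [hx, Fin.castSucc_ne_last]
        right_inv := fun i => by
          by_cases hi : i = Fin.last m
          · simp [hi, hc']
          · have hne' := (mem_erase.1 (A.1.symm (i.castPred hi)).2).1
            simp only [hi, dite_false, hne']
            simp }
    have hmono : StrictMono e := by
      intro x y hxy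
      by_cases hy : y.1 = c
      · have hx : x.1 ≠ c := fun hx => hxy.ne (Subtype.ext (hx.trans hy.symm))
        simp [e, hx, hy, Fin.castSucc_lt_last]
      · have hx : x.1 ≠ c := fun hx => by
          have h1 : x.1 ≤ y.1 := hxy.le
          exact hy (hc.maximal hS y.2 (hx ▸ h1.1) (hx ▸ h1.2))
        simp only [e, Equiv.coe_fn_mk, hx, hy, dite_false, Fin.castSucc_lt_castSucc_iff]
        exact A.2 (Subtype.coe_lt_coe.1 hxy)
    have htc : topCell (⟨e, hmono⟩ : Tableau S (m + 1)) = c := by simp [topCell, e, hc']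
    refine ⟨⟨⟨e, hmono⟩, htc⟩, Subtype.ext (Equiv.ext fun y => ?_)⟩
    simp [down, e, (mem_erase.1 y.2).1]

/-- The recursion on the cell of the largest entry. -/
theorem tabCount_rec (hS : IsShape S) (hne : S.Nonempty) :
    tabCount S = ∑ c ∈ corners S, tabCount (S.erase c) := by
  obtain ⟨m, hm⟩ : ∃ m, S.card = m + 1 := ⟨S.card - 1, by have := hne.card_pos; omega⟩
  have : Fintype (Tableau S (m + 1)) := Fintype.ofFinite _
  rw [tabCount_eq hm, Nat.card_eq_fintype_card, ← card_univ,
    card_eq_sum_card_fiberwise (f := topCell) (t := corners S)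
      (fun T _ => mem_coe.2 (mem_corners.2 (topCell_isCorner T)))]
  refine sum_congr rfl fun c hc => ?_
  have hcor := mem_corners.1 hc
  rw [tabCount_eq (S := S.erase c) (m := m) (by rw [card_erase_of_mem hcor.1, hm]; omega),
    ← card_topCell hS hcor, Nat.card_eq_fintype_card, Fintype.card_subtype]

/-- The hook length formula. -/
theorem tabCount_mul_hookProd : ∀ (m : ℕ) (S : Finset (ℕ × ℕ)), IsShape S → S.card = m →
    tabCount S * hookProd S = m.factorial := by
  intro m
  induction m with
  | zero =>
    intro S _ hm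
    rw [card_eq_zero.1 hm, tabCount_empty]
    simp [hookProd]
  | succ m ih =>
    intro S hS hm
    have hne : S.Nonempty := card_pos.1 (by omega)
    have h1 : ∀ c ∈ corners S, (tabCount (S.erase c) : ℚ) * hookProd S =
        (m.factorial : ℚ) * ((hookProd S : ℚ) / hookProd (S.erase c)) := by
      intro c hc
      have hcor := mem_corners.1 hc
      have h2 : (tabCount (S.erase c) : ℚ) * hookProd (S.erase c) = m.factorial := by
        exact_mod_cast ih _ (isShape_erase hS hcor) (by rw [card_erase_of_mem hcor.1, hm]; omega)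
      have h3 : (hookProd (S.erase c) : ℚ) ≠ 0 := Nat.cast_ne_zero.2 (hookProd_pos _).ne'
      rw [← h2]
      field_simp
    have h4 : ((tabCount S * hookProd S : ℕ) : ℚ) = ((m + 1).factorial : ℕ) := by
      rw [tabCount_rec hS hne, Nat.cast_mul, Nat.cast_sum, sum_mul, sum_congr rfl h1, ← mul_sum,
        sum_hook_ratio hS, hm, Nat.factorial_succ]
      push_cast
      ring
    exact_mod_cast h4

/-! ### Adding cells -/

/-- A cell that may be added to a shape. -/
def IsAddable (S : Finset (ℕ × ℕ)) (a : ℕ × ℕ) : Prop :=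
  a.2 = rlen S a.1 ∧ (a.1 = 0 ∨ rlen S a.1 < rlen S (a.1 - 1))

/-- The cells that may be added. -/
def addables (S : Finset (ℕ × ℕ)) : Finset (ℕ × ℕ) :=
  ((range (clen S 0 + 1)).image fun i => (i, rlen S i)).filter (IsAddable S)

lemma mem_addables (hS : IsShape S) {a : ℕ × ℕ} : a ∈ addables S ↔ IsAddable S a := by
  refine ⟨fun h => (mem_filter.1 h).2, fun h => mem_filter.2 ⟨mem_image.2 ⟨a.1, ?_, ?_⟩, h⟩⟩
  · rw [mem_range]
    rcases h.2 with h0 | h0
    · omega
    · have := (mem_iff_clen hS).1 ((mem_iff_rlen hS (i := a.1 - 1) (j := 0)).2 (by omega))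
      omega
  · exact Prod.ext rfl h.1.symm

lemma isAddable_iff (hS : IsShape S) {a : ℕ × ℕ} :
    IsAddable S a ↔ a ∉ S ∧ IsShape (insert a S) := by
  constructor
  · rintro ⟨h1, h2⟩
    refine ⟨fun hm => ?_, ?_⟩
    · have := (mem_iff_rlen hS (i := a.1) (j := a.2)).1 hm
      omega
    · intro x y hyx hx
      rcases mem_insert.1 (mem_coe.1 hx) with rfl | hx
      · refine mem_coe.2 (mem_insert.2 ?_)
        rcases Nat.lt_or_ge y.2 x.2 with hlt | hge
        · refine Or.inr ((mem_iff_rlen hS (i := y.1) (j := y.2)).2 ?_)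
          have := rlen_anti hS hyx.1
          omega
        · rcases Nat.lt_or_ge y.1 x.1 with hlt' | hge'
          · refine Or.inr ((mem_iff_rlen hS (i := y.1) (j := y.2)).2 ?_)
            have h3 : rlen S (x.1 - 1) ≤ rlen S y.1 := rlen_anti hS (by omega)
            have h4 : y.2 ≤ x.2 := hyx.2
            rcases h2 with h2 | h2 <;> omega
          · exact Or.inl (Prod.ext (le_antisymm hyx.1 hge') (le_antisymm hyx.2 hge))
      · exact mem_coe.2 (mem_insert_of_mem (hS.down hx hyx.1 hyx.2))
  · rintro ⟨hm, hins⟩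
    have hself : (a.1, a.2) ∈ insert a S := mem_insert_self _ _
    have h1 : ¬a.2 < rlen S a.1 := fun hh => hm ((mem_iff_rlen hS (i := a.1) (j := a.2)).2 hh)
    refine ⟨?_, ?_⟩
    · by_contra hne
      have hlt : rlen S a.1 < a.2 := by omega
      rcases mem_insert.1 (hins.down hself le_rfl hlt.le :
          (a.1, rlen S a.1) ∈ insert a S) with he | he
      · have := congrArg Prod.snd he; simp only at this; omega
      · exact lt_irrefl _ ((mem_iff_rlen hS).1 he)
    · by_contra hh
      rw [not_or] at hh
      rcases mem_insert.1 (hins.down hself (Nat.sub_le _ _) le_rfl :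
          (a.1 - 1, a.2) ∈ insert a S) with he | he
      · have := congrArg Prod.fst he; simp only at this; omega
      · have := (mem_iff_rlen hS).1 he; omega

lemma card_addables (hS : IsShape S) : (addables S).card = (corners S).card + 1 := by
  have hz : (0, rlen S 0) ∈ addables S := (mem_addables hS).2 ⟨rfl, Or.inl rfl⟩
  rw [← card_erase_add_one hz, add_left_inj]
  refine Finset.card_bij (fun a _ => (a.1 - 1, rlen S (a.1 - 1) - 1)) ?_ ?_ ?_
  · intro a ha
    obtain ⟨hne, ha'⟩ := mem_erase.1 ha
    obtain ⟨h1, h2⟩ := (mem_addables hS).1 ha'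
    have h0 : a.1 ≠ 0 := fun h0 => hne (Prod.ext h0 (by rw [h1, h0]))
    have h3 : rlen S a.1 < rlen S (a.1 - 1) := h2.resolve_left h0
    refine mem_corners.2 ⟨(mem_iff_rlen hS).2 (by omega), fun hm => ?_, fun hm => ?_⟩
    · have := (mem_iff_rlen hS).1 hm
      rw [Nat.sub_add_cancel (Nat.pos_of_ne_zero h0)] at this
      omega
    · have := (mem_iff_rlen hS).1 hm
      simp only at this
      omega
  · intro a ha b hb he
    obtain ⟨hna, ha'⟩ := mem_erase.1 ha
    obtain ⟨hnb, hb'⟩ := mem_erase.1 hb
    obtain ⟨h1, -⟩ := (mem_addables hS).1 ha'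
    obtain ⟨h2, -⟩ := (mem_addables hS).1 hb'
    have h0a : a.1 ≠ 0 := fun h0 => hna (Prod.ext h0 (by rw [h1, h0]))
    have h0b : b.1 ≠ 0 := fun h0 => hnb (Prod.ext h0 (by rw [h2, h0]))
    have h3 : a.1 - 1 = b.1 - 1 := congrArg Prod.fst he
    have h4 : a.1 = b.1 := by omega
    exact Prod.ext h4 (by rw [h1, h2, h4])
  · intro c hc
    have hcor := mem_corners.1 hc
    have h1 := hcor.rlen_eq hS
    refine ⟨(c.1 + 1, rlen S (c.1 + 1)), mem_erase.2 ⟨by simp, (mem_addables hS).2 ⟨rfl, ?_⟩⟩, ?_⟩
    · right
      have h2 : ¬c.2 < rlen S (c.1 + 1) := fun hh => hcor.2.1 ((mem_iff_rlen hS).2 hh)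
      simp only [Nat.add_sub_cancel]
      omega
    · rw [Nat.add_sub_cancel, h1, Nat.add_sub_cancel]

/-- The upper branching rule. -/
theorem tabCount_up : ∀ (m : ℕ) (S : Finset (ℕ × ℕ)), IsShape S → S.card = m →
    ∑ a ∈ addables S, tabCount (insert a S) = (m + 1) * tabCount S := by
  intro m
  induction m using Nat.strong_induction_on with
  | _ m ih =>
    intro S hS hm
    set P := ((addables S).sigma fun a => (corners (insert a S)).erase a)
    set Q := ((corners S).sigma fun b => (addables (S.erase b)).erase b)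
    have hdown : ∀ a ∈ addables S, tabCount (insert a S) = tabCount S +
        ∑ b ∈ (corners (insert a S)).erase a, tabCount ((insert a S).erase b) := by
      intro a ha
      obtain ⟨h1, h2⟩ := (isAddable_iff hS).1 ((mem_addables hS).1 ha)
      have hac : a ∈ corners (insert a S) := by
        refine mem_corners.2 ⟨mem_insert_self _ _, fun hh => ?_, fun hh => ?_⟩
        · rcases mem_insert.1 hh with hh | hh
          · have := congrArg Prod.fst hh; simp only at this; omega
          · exact h1 (hS.down hh (Nat.le_succ _) le_rfl)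
        · rcases mem_insert.1 hh with hh | hh
          · have := congrArg Prod.snd hh; simp only at this; omega
          · exact h1 (hS.down hh le_rfl (Nat.le_succ _))
      rw [tabCount_rec h2 (insert_nonempty _ _), ← add_sum_erase _ _ hac, erase_insert h1]
    have hswap : ∑ x ∈ P, tabCount ((insert x.1 S).erase x.2) =
        ∑ y ∈ Q, tabCount (insert y.2 (S.erase y.1)) := by
      refine Finset.sum_bij' (fun x _ => ⟨x.2, x.1⟩) (fun y _ => ⟨y.2, y.1⟩) ?_ ?_
        (fun x _ => rfl) (fun y _ => rfl) ?_
      · rintro ⟨a, b⟩ hx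
        obtain ⟨ha, hb⟩ := mem_sigma.1 hx
        simp only at ha hb
        obtain ⟨hne, hbc⟩ := mem_erase.1 hb
        obtain ⟨h1, h2⟩ := (isAddable_iff hS).1 ((mem_addables hS).1 ha)
        have hcor := mem_corners.1 hbc
        have hbS : b ∈ S := (mem_insert.1 hcor.1).resolve_left hne
        have hb' : IsCorner S b := ⟨hbS, fun hh => hcor.2.1 (mem_insert_of_mem hh),
          fun hh => hcor.2.2 (mem_insert_of_mem hh)⟩
        have herase := isShape_erase hS hb'
        refine mem_sigma.2 ⟨mem_corners.2 hb', mem_erase.2 ⟨hne.symm, ?_⟩⟩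
        refine (mem_addables herase).2 ((isAddable_iff herase).2 ⟨fun hh => h1 (mem_erase.1 hh).2, ?_⟩)
        rw [← erase_insert_of_ne hne.symm]
        exact isShape_erase h2 hcor
      · rintro ⟨b, a⟩ hy
        obtain ⟨hb, ha⟩ := mem_sigma.1 hy
        simp only at ha hb
        obtain ⟨hne, ha'⟩ := mem_erase.1 ha
        have hb' := mem_corners.1 hb
        have herase := isShape_erase hS hb'
        obtain ⟨h1, h2⟩ := (isAddable_iff herase).1 ((mem_addables herase).1 ha')
        have haS : a ∉ S := fun hh => h1 (mem_erase.2 ⟨hne, hh⟩)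
        have h3 : IsShape (insert a S) := by
          intro x y hyx hx
          rcases mem_insert.1 (mem_coe.1 hx) with rfl | hx
          · have h5 : y ∈ insert x (S.erase b) :=
              h2.down (mem_insert_self _ _) hyx.1 hyx.2
            exact mem_coe.2 (insert_subset_insert _ (erase_subset _ _) h5)
          · exact mem_coe.2 (mem_insert_of_mem (hS.down hx hyx.1 hyx.2))
        refine mem_sigma.2 ⟨(mem_addables hS).2 ((isAddable_iff hS).2 ⟨haS, h3⟩),
          mem_erase.2 ⟨hne.symm, mem_corners.2 ?_⟩⟩
        -- `a` does not lie beside `b`, as the new shape would miss `b`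
        have key : ∀ d, d ≠ b → b.1 ≤ d.1 → b.2 ≤ d.2 → d ∉ insert a S := by
          intro d hdb hd1 hd2 hd
          rcases mem_insert.1 hd with rfl | hd
          · rcases mem_insert.1 (h2.down (mem_insert_self _ _) hd1 hd2) with he | he
            · exact hdb he.symm
            · exact (mem_erase.1 he).1 rfl
          · exact hdb (hb'.maximal hS hd hd1 hd2)
        refine ⟨mem_insert_of_mem hb'.1, key _ (fun he => ?_) (Nat.le_succ _) le_rfl,
          key _ (fun he => ?_) le_rfl (Nat.le_succ _)⟩
        · have := congrArg Prod.fst he; simp only at this; omega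
        · have := congrArg Prod.snd he; simp only at this; omega
      · rintro ⟨a, b⟩ hx
        obtain ⟨-, hb⟩ := mem_sigma.1 hx
        simp only
        rw [erase_insert_of_ne (mem_erase.1 hb).1.symm]
    have hrem : ∀ b ∈ corners S,
        (∑ a ∈ (addables (S.erase b)).erase b, tabCount (insert a (S.erase b))) + tabCount S =
          m * tabCount (S.erase b) := by
      intro b hb
      have hb' := mem_corners.1 hb
      have herase := isShape_erase hS hb'
      have hm0 : 0 < m := hm ▸ card_pos.2 ⟨b, hb'.1⟩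
      have hbin : b ∈ addables (S.erase b) := (mem_addables herase).2
        ((isAddable_iff herase).2 ⟨notMem_erase _ _, by rw [insert_erase hb'.1]; exact hS⟩)
      have h := ih (m - 1) (by omega) (S.erase b) herase (by rw [card_erase_of_mem hb'.1, hm])
      rw [← sum_erase_add _ _ hbin, insert_erase hb'.1, Nat.sub_add_cancel hm0] at h
      exact h
    have hsumrem : (∑ b ∈ corners S, ∑ a ∈ (addables (S.erase b)).erase b,
        tabCount (insert a (S.erase b))) + (corners S).card * tabCount S = m * tabCount S := by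
      rw [← smul_eq_mul, ← sum_const, ← sum_add_distrib, sum_congr rfl hrem, ← mul_sum]
      rcases S.eq_empty_or_nonempty with rfl | hne
      · simp only [card_empty] at hm
        simp [← hm]
      · rw [← tabCount_rec hS hne]
    rw [sum_congr rfl hdown, sum_add_distrib, sum_const, smul_eq_mul, card_addables hS,
      sum_sigma', hswap, sum_sigma]
    simp only [add_mul, one_mul]
    linarith

/-- The shapes with `n` cells. -/
def shapes (n : ℕ) : Finset (Finset (ℕ × ℕ)) :=
  ((range n ×ˢ range n).powerset).filter fun S => IsShape S ∧ S.card = n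

lemma mem_shapes {n : ℕ} {S : Finset (ℕ × ℕ)} : S ∈ shapes n ↔ IsShape S ∧ S.card = n := by
  refine ⟨fun h => (mem_filter.1 h).2, fun h => mem_filter.2 ⟨mem_powerset.2 fun d hd => ?_, h⟩⟩
  have h1 := (mem_iff_rlen h.1 (i := d.1) (j := d.2)).1 hd
  have h2 := (mem_iff_clen h.1 (i := d.1) (j := d.2)).1 hd
  have h3 : rlen S d.1 ≤ n := h.2 ▸ card_filter_le _ _
  have h4 : clen S d.2 ≤ n := h.2 ▸ card_filter_le _ _
  exact mem_product.2 ⟨mem_range.2 (by omega), mem_range.2 (by omega)⟩

/-- The squares add up to `n!`. -/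
theorem sum_tabCount_sq : ∀ n, ∑ S ∈ shapes n, tabCount S ^ 2 = n.factorial := by
  intro n
  induction n with
  | zero =>
    have : shapes 0 = {∅} := by
      ext S
      rw [mem_shapes, mem_singleton, card_eq_zero]
      exact ⟨fun h => h.2, fun h => ⟨by subst h; simp [IsShape, IsLowerSet], h⟩⟩
    rw [this, sum_singleton, tabCount_empty]
    rfl
  | succ n ih =>
    have h1 : ∀ S ∈ shapes (n + 1),
        tabCount S ^ 2 = ∑ c ∈ corners S, tabCount S * tabCount (S.erase c) := by
      intro S hS
      obtain ⟨h2, h3⟩ := mem_shapes.1 hS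
      rw [sq, ← mul_sum, ← tabCount_rec h2 (card_pos.1 (by omega))]
    have h4 : ∑ x ∈ (shapes (n + 1)).sigma (fun S => corners S),
          tabCount x.1 * tabCount (x.1.erase x.2) =
        ∑ y ∈ (shapes n).sigma (fun R => addables R),
          tabCount (insert y.2 y.1) * tabCount y.1 := by
      refine Finset.sum_bij' (fun x _ => ⟨x.1.erase x.2, x.2⟩) (fun y _ => ⟨insert y.2 y.1, y.2⟩)
        ?_ ?_ ?_ ?_ ?_
      · rintro ⟨S, c⟩ hx
        obtain ⟨hS, hc⟩ := mem_sigma.1 hx
        simp only at hS hc
        obtain ⟨h2, h3⟩ := mem_shapes.1 hS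
        have hc' := mem_corners.1 hc
        have he := isShape_erase h2 hc'
        refine mem_sigma.2 ⟨mem_shapes.2 ⟨he, by rw [card_erase_of_mem hc'.1, h3]; omega⟩,
          (mem_addables he).2 ((isAddable_iff he).2 ⟨notMem_erase _ _, ?_⟩)⟩
        rw [insert_erase hc'.1]; exact h2
      · rintro ⟨R, a⟩ hy
        obtain ⟨hR, ha⟩ := mem_sigma.1 hy
        simp only at hR ha
        obtain ⟨h2, h3⟩ := mem_shapes.1 hR
        obtain ⟨h5, h6⟩ := (isAddable_iff h2).1 ((mem_addables h2).1 ha)
        refine mem_sigma.2 ⟨mem_shapes.2 ⟨h6, by rw [card_insert_of_notMem h5, h3]⟩,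
          mem_corners.2 ⟨mem_insert_self _ _, fun hh => ?_, fun hh => ?_⟩⟩
        · rcases mem_insert.1 hh with hh | hh
          · have := congrArg Prod.fst hh; simp only at this; omega
          · exact h5 (h2.down hh (Nat.le_succ _) le_rfl)
        · rcases mem_insert.1 hh with hh | hh
          · have := congrArg Prod.snd hh; simp only at this; omega
          · exact h5 (h2.down hh le_rfl (Nat.le_succ _))
      · rintro ⟨S, c⟩ hx
        simp only
        rw [insert_erase (mem_corners.1 (mem_sigma.1 hx).2).1]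
      · rintro ⟨R, a⟩ hy
        obtain ⟨hR, ha⟩ := mem_sigma.1 hy
        simp only at hR ha
        simp only
        rw [erase_insert ((isAddable_iff (mem_shapes.1 hR).1).1
          ((mem_addables (mem_shapes.1 hR).1).1 ha)).1]
      · rintro ⟨S, c⟩ hx
        simp only
        rw [insert_erase (mem_corners.1 (mem_sigma.1 hx).2).1]
    rw [sum_congr rfl h1, sum_sigma', h4,
      sum_sigma, Nat.factorial_succ, ← ih, mul_sum]
    refine sum_congr rfl fun R hR => ?_
    obtain ⟨h2, h3⟩ := mem_shapes.1 hR
    simp only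
    rw [← sum_mul, tabCount_up n R h2 h3]
    ring

end FA.YoungHook
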