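import Fermat.Agent.YoungHook.Shape

/-!
# The hook walk

The chances of Greene, Nijenhuis and Wilf that the hook walk from a cell stops at a given corner
have a product form; as they add up to one, the hook ratios of the corners add up to the number of
cells.
-/

set_option autoImplicit false

noncomputable section

namespace FA.YoungHook

open Finset Classical

/-- The product `∏ (1 + 1 / x i)` over `a ≤ i < α`. -/
def tailProd (x : ℕ → ℚ) (α a : ℕ) : ℚ := ∏ i ∈ Ico a α, (1 + (x i)⁻¹)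

/-- One factor of the stopping chance. -/
def walkFactor (x : ℕ → ℚ) (α a : ℕ) : ℚ :=
  if a = α then 1 else (x a)⁻¹ * tailProd x α (a + 1)

lemma sum_walkFactor (x : ℕ → ℚ) (α a : ℕ) (ha : a ≤ α) :
    ∑ i ∈ Icc a α, walkFactor x α i = tailProd x α a := by
  induction hn : α - a generalizing a with
  | zero =>
    have : a = α := by omega
    subst this
    simp [walkFactor, tailProd]
  | succ m ih =>
    have hlt : a < α := by omega
    rw [← Finset.insert_Icc_add_one_left_eq_Icc ha, sum_insert (by simp),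
      ih (a + 1) hlt (by omega), walkFactor, if_neg hlt.ne]
    unfold tailProd
    rw [Finset.prod_eq_prod_Ico_succ_bot hlt]
    ring

lemma sum_walkFactor_succ (x : ℕ → ℚ) (α a : ℕ) (ha : a ≤ α) (h0 : a < α → x a ≠ 0)
    (hα : x α = 0) : ∑ i ∈ Icc (a + 1) α, walkFactor x α i = x a * walkFactor x α a := by
  rcases eq_or_lt_of_le ha with rfl | hlt
  · simp [hα]
  · rw [sum_walkFactor x α (a + 1) hlt, walkFactor, if_neg hlt.ne, ← mul_assoc,
      mul_inv_cancel₀ (h0 hlt), one_mul]

variable (S : Finset (ℕ × ℕ))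

/-- The chance to stop at the corner `c` starting from `d`. -/
def walkChance (c d : ℕ × ℕ) : ℚ :=
  if d.1 ≤ c.1 ∧ d.2 ≤ c.2 then
    walkFactor (fun i => (armLeg S (i, c.2) : ℚ)) c.1 d.1 *
      walkFactor (fun j => (armLeg S (c.1, j) : ℚ)) c.2 d.2
  else 0

variable {S}

lemma armLeg_corner (h : IsShape S) {c : ℕ × ℕ} (hc : IsCorner S c) : armLeg S c = 0 := by
  have := armLeg_eq h hc.1
  rw [hc.rlen_eq h, hc.clen_eq h] at this
  push_cast at this
  omega

lemma armLeg_pos_row (h : IsShape S) {c : ℕ × ℕ} (hc : IsCorner S c) {i : ℕ} (hi : i < c.1) :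
    0 < armLeg S (i, c.2) := by
  have h1 := armLeg_eq h (h.down (c := (i, c.2)) hc.1 hi.le le_rfl)
  have h2 := hc.clen_eq h
  have h3 := (mem_iff_rlen h (i := i) (j := c.2)).1 (h.down (c := (i, c.2)) hc.1 hi.le le_rfl)
  simp only [h2] at h1
  omega

lemma armLeg_pos_col (h : IsShape S) {c : ℕ × ℕ} (hc : IsCorner S c) {j : ℕ} (hj : j < c.2) :
    0 < armLeg S (c.1, j) := by
  have h1 := armLeg_eq h (h.down (c := (c.1, j)) hc.1 le_rfl hj.le)
  have h2 := hc.rlen_eq h
  have h3 := (mem_iff_clen h (i := c.1) (j := j)).1 (h.down (c := (c.1, j)) hc.1 le_rfl hj.le)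
  simp only [h2] at h1
  omega

lemma armLeg_add (h : IsShape S) {c : ℕ × ℕ} (hc : IsCorner S c) {a b : ℕ} (ha : a ≤ c.1)
    (hb : b ≤ c.2) : armLeg S (a, b) = armLeg S (a, c.2) + armLeg S (c.1, b) := by
  have h1 := armLeg_eq h (h.down (c := (a, b)) hc.1 ha hb)
  have h2 := armLeg_eq h (h.down (c := (a, c.2)) hc.1 ha le_rfl)
  have h3 := armLeg_eq h (h.down (c := (c.1, b)) hc.1 le_rfl hb)
  simp only [hc.rlen_eq h, hc.clen_eq h] at h2 h3
  simp only at h1
  omega

/-- The recursion of the hook walk. -/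
lemma walkChance_rec (h : IsShape S) {c : ℕ × ℕ} (hc : IsCorner S c) {a b : ℕ} :
    (armLeg S (a, b) : ℚ) * walkChance S c (a, b) =
      (∑ i ∈ Ioo a (clen S b), walkChance S c (i, b)) +
        ∑ j ∈ Ioo b (rlen S a), walkChance S c (a, j) := by
  by_cases hle : a ≤ c.1 ∧ b ≤ c.2
  swap
  · have h0 : ∀ i j, a ≤ i → b ≤ j → walkChance S c (i, j) = 0 := fun i j hi hj =>
      if_neg fun hh => hle ⟨hi.trans hh.1, hj.trans hh.2⟩
    rw [h0 a b le_rfl le_rfl, mul_zero, sum_eq_zero (fun i hi => h0 i b (mem_Ioo.1 hi).1.le le_rfl),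
      sum_eq_zero (fun j hj => h0 a j le_rfl (mem_Ioo.1 hj).1.le), add_zero]
  obtain ⟨ha, hb⟩ := hle
  set u := walkFactor (fun i => (armLeg S (i, c.2) : ℚ)) c.1 with hu
  set v := walkFactor (fun j => (armLeg S (c.1, j) : ℚ)) c.2 with hv
  have e1 : ∑ i ∈ Ioo a (clen S b), walkChance S c (i, b) = (∑ i ∈ Icc (a + 1) c.1, u i) * v b := by
    have hsub : Icc (a + 1) c.1 ⊆ Ioo a (clen S b) := by
      intro i hi
      obtain ⟨hi1, hi2⟩ := mem_Icc.1 hi
      exact mem_Ioo.2 ⟨hi1, (mem_iff_clen h).1 (h.down (c := (i, b)) hc.1 hi2 hb)⟩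
    rw [← sum_subset (f := fun i => walkChance S c (i, b)) hsub (fun i hi hi' => if_neg fun hh => hi' (mem_Icc.2
      ⟨(mem_Ioo.1 hi).1, hh.1⟩)), sum_mul]
    exact sum_congr rfl fun i hi => if_pos ⟨(mem_Icc.1 hi).2, hb⟩
  have e2 : ∑ j ∈ Ioo b (rlen S a), walkChance S c (a, j) = u a * ∑ j ∈ Icc (b + 1) c.2, v j := by
    have hsub : Icc (b + 1) c.2 ⊆ Ioo b (rlen S a) := by
      intro j hj
      obtain ⟨hj1, hj2⟩ := mem_Icc.1 hj
      exact mem_Ioo.2 ⟨hj1, (mem_iff_rlen h).1 (h.down (c := (a, j)) hc.1 ha hj2)⟩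
    rw [← sum_subset (f := fun j => walkChance S c (a, j)) hsub (fun j hj hj' => if_neg fun hh => hj' (mem_Icc.2
      ⟨(mem_Ioo.1 hj).1, hh.2⟩)), mul_sum]
    exact sum_congr rfl fun j hj => if_pos ⟨ha, (mem_Icc.1 hj).2⟩
  have e0 : walkChance S c (a, b) = u a * v b := if_pos ⟨ha, hb⟩
  have hz : ((armLeg S (c.1, c.2) : ℕ) : ℚ) = 0 := by
    rw [show (c.1, c.2) = c from rfl, armLeg_corner h hc, Nat.cast_zero]
  rw [e0, e1, e2, hu, hv,
    sum_walkFactor_succ (fun i => (armLeg S (i, c.2) : ℚ)) _ _ ha (fun hlt => Nat.cast_ne_zero.2 (armLeg_pos_row h hc hlt).ne') hz,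
    sum_walkFactor_succ (fun j => (armLeg S (c.1, j) : ℚ)) _ _ hb (fun hlt => Nat.cast_ne_zero.2 (armLeg_pos_col h hc hlt).ne') hz,
    armLeg_add h hc ha hb, Nat.cast_add]
  ring

/-- The hook walk stops at some corner. -/
lemma sum_walkChance (h : IsShape S) : ∀ (m : ℕ) (d : ℕ × ℕ), d ∈ S → armLeg S d ≤ m →
    ∑ c ∈ corners S, walkChance S c d = 1 := by
  intro m
  induction m with
  | zero =>
    intro d hd hm
    have hc := isCorner_of_armLeg h hd (Nat.le_zero.1 hm)
    rw [Finset.sum_eq_single d]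
    · simp [walkChance, walkFactor]
    · intro c hc' hne
      refine if_neg fun hle => hne ?_
      exact hc.maximal h (mem_corners.1 hc').1 hle.1 hle.2
    · exact fun hn => absurd (mem_corners.2 hc) hn
  | succ m ih =>
    intro d hd hm
    rcases Nat.lt_or_ge (armLeg S d) (m + 1) with hlt | hge
    · exact ih d hd (Nat.lt_succ_iff.1 hlt)
    obtain ⟨a, b⟩ := d
    have hpos : (armLeg S (a, b) : ℚ) ≠ 0 := Nat.cast_ne_zero.2 (by omega)
    have hrow : ∀ i ∈ Ioo a (clen S b), ∑ c ∈ corners S, walkChance S c (i, b) = 1 := by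
      intro i hi
      obtain ⟨hi1, hi2⟩ := mem_Ioo.1 hi
      have hm' : (i, b) ∈ S := (mem_iff_clen h).2 hi2
      refine ih _ hm' ?_
      have h1 := armLeg_eq h hd
      have h2 := armLeg_eq h hm'
      have h3 := rlen_anti h hi1.le
      simp only at h1 h2
      omega
    have hcol : ∀ j ∈ Ioo b (rlen S a), ∑ c ∈ corners S, walkChance S c (a, j) = 1 := by
      intro j hj
      obtain ⟨hj1, hj2⟩ := mem_Ioo.1 hj
      have hm' : (a, j) ∈ S := (mem_iff_rlen h).2 hj2
      refine ih _ hm' ?_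
      have h1 := armLeg_eq h hd
      have h2 := armLeg_eq h hm'
      have h3 := clen_anti h hj1.le
      simp only at h1 h2
      omega
    apply mul_left_cancel₀ hpos
    rw [mul_one, mul_sum, sum_congr rfl fun c hc => walkChance_rec h (mem_corners.1 hc),
      sum_add_distrib, sum_comm (s := corners S), sum_congr rfl hrow,
      sum_comm (s := corners S), sum_congr rfl hcol]
    simp only [sum_const, Nat.card_Ioo, nsmul_eq_mul, mul_one]
    rw [← Nat.cast_add]
    congr 1
    have h1 := armLeg_eq h hd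
    have h2 := (mem_iff_rlen h).1 hd
    have h3 := (mem_iff_clen h).1 hd
    simp only at h1
    omega

lemma sum_walkChance_cells (h : IsShape S) {c : ℕ × ℕ} (hc : IsCorner S c) :
    ∑ d ∈ S, walkChance S c d =
      tailProd (fun i => (armLeg S (i, c.2) : ℚ)) c.1 0 *
        tailProd (fun j => (armLeg S (c.1, j) : ℚ)) c.2 0 := by
  rw [← sum_walkFactor _ _ _ (Nat.zero_le _), ← sum_walkFactor _ _ _ (Nat.zero_le _), sum_mul_sum,
    ← sum_product']
  have hsub : Icc 0 c.1 ×ˢ Icc 0 c.2 ⊆ S := by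
    intro d hd
    obtain ⟨h1, h2⟩ := mem_product.1 hd
    exact h.down hc.1 (mem_Icc.1 h1).2 (mem_Icc.1 h2).2
  rw [← sum_subset (f := fun d => walkChance S c d) hsub fun d _ hd => if_neg fun hh => hd (mem_product.2
    ⟨mem_Icc.2 ⟨Nat.zero_le _, hh.1⟩, mem_Icc.2 ⟨Nat.zero_le _, hh.2⟩⟩)]
  refine sum_congr rfl fun d hd => if_pos ?_
  obtain ⟨h1, h2⟩ := mem_product.1 hd
  exact ⟨(mem_Icc.1 h1).2, (mem_Icc.1 h2).2⟩

/-- The product of the hook lengths. -/
def hookProd (S : Finset (ℕ × ℕ)) : ℕ := ∏ d ∈ S, (armLeg S d + 1)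

lemma hookProd_pos (S : Finset (ℕ × ℕ)) : 0 < hookProd S := prod_pos fun _ _ => Nat.succ_pos _

lemma hookProd_ratio (h : IsShape S) {c : ℕ × ℕ} (hc : IsCorner S c) :
    (hookProd S : ℚ) = hookProd (S.erase c) *
      (tailProd (fun i => (armLeg S (i, c.2) : ℚ)) c.1 0 *
        tailProd (fun j => (armLeg S (c.1, j) : ℚ)) c.2 0) := by
  set P := (range c.1).image fun i => (i, c.2) with hP
  set Q := (range c.2).image fun j => (c.1, j) with hQ
  have hPQ : Disjoint P Q := by
    rw [disjoint_left]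
    intro e he1 he2
    obtain ⟨i, hi, rfl⟩ := mem_image.1 he1
    obtain ⟨j, _, he⟩ := mem_image.1 he2
    simp only [Prod.mk.injEq] at he
    exact (mem_range.1 hi).ne he.1.symm
  have hsub : P ∪ Q ⊆ S.erase c := by
    intro e he
    rcases mem_union.1 he with he | he
    · obtain ⟨i, hi, rfl⟩ := mem_image.1 he
      exact mem_erase.2 ⟨fun hh => (mem_range.1 hi).ne (Prod.ext_iff.1 hh).1,
        h.down hc.1 (mem_range.1 hi).le le_rfl⟩
    · obtain ⟨j, hj, rfl⟩ := mem_image.1 he
      exact mem_erase.2 ⟨fun hh => (mem_range.1 hj).ne (Prod.ext_iff.1 hh).2,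
        h.down hc.1 le_rfl (mem_range.1 hj).le⟩
  have hT : tailProd (fun i => (armLeg S (i, c.2) : ℚ)) c.1 0 *
      tailProd (fun j => (armLeg S (c.1, j) : ℚ)) c.2 0 =
        ∏ e ∈ S.erase c, if e ∈ P ∪ Q then 1 + (armLeg S e : ℚ)⁻¹ else 1 := by
    rw [prod_ite_mem, inter_eq_right.2 hsub, prod_union hPQ, hP, hQ,
      prod_image (fun a _ b _ he => (Prod.ext_iff.1 he).1),
      prod_image (fun a _ b _ he => (Prod.ext_iff.1 he).2)]
    simp only [tailProd, range_eq_Ico]
  rw [hT, hookProd, hookProd, Nat.cast_prod, Nat.cast_prod, ← mul_prod_erase S _ hc.1,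
    armLeg_corner h hc, ← prod_mul_distrib]
  simp only [zero_add, Nat.cast_one, one_mul]
  refine prod_congr rfl fun e he => ?_
  obtain ⟨hne, heS⟩ := mem_erase.1 he
  have hr := (mem_iff_rlen h (i := e.1) (j := e.2)).1 heS
  have hl := (mem_iff_clen h (i := e.1) (j := e.2)).1 heS
  have e1 := rlen_erase c hc.1 e.1
  have e2 := clen_erase c hc.1 e.2
  have hrc := hc.rlen_eq h
  have hcc := hc.clen_eq h
  by_cases hm : e ∈ P ∪ Q
  · rw [if_pos hm]
    have h3 : armLeg S e = armLeg (S.erase c) e + 1 := by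
      rcases mem_union.1 hm with hm | hm
      · obtain ⟨i, hi, rfl⟩ := mem_image.1 hm
        have hi' := mem_range.1 hi
        simp [hi'.ne] at e1 e2
        unfold armLeg
        simp only [e1, e2]
        simp only at hr hl
        omega
      · obtain ⟨j, hj, rfl⟩ := mem_image.1 hm
        have hj' := mem_range.1 hj
        simp [hj'.ne] at e1 e2
        unfold armLeg
        simp only [e1, e2]
        simp only at hr hl
        omega
    rw [h3]
    push_cast
    field_simp
  · rw [if_neg hm, mul_one]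
    have h4 : e.1 ≠ c.1 := by
      intro he1
      apply hm
      refine mem_union.2 (Or.inr (mem_image.2 ⟨e.2, mem_range.2 ?_, Prod.ext he1.symm rfl⟩))
      by_contra hle
      exact hne (hc.maximal h heS he1.ge (Nat.le_of_not_lt hle))
    have h5 : e.2 ≠ c.2 := by
      intro he2
      apply hm
      refine mem_union.2 (Or.inl (mem_image.2 ⟨e.1, mem_range.2 ?_, Prod.ext rfl he2.symm⟩))
      by_contra hle
      exact hne (hc.maximal h heS (Nat.le_of_not_lt hle) he2.ge)
    simp only [if_neg h4, if_neg h5, Nat.sub_zero] at e1 e2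
    simp only [armLeg, e1, e2]

/-- The hook ratios of the corners add up to the number of cells. -/
theorem sum_hook_ratio (h : IsShape S) :
    ∑ c ∈ corners S, (hookProd S : ℚ) / hookProd (S.erase c) = S.card := by
  have h1 : ∀ c ∈ corners S, (hookProd S : ℚ) / hookProd (S.erase c) = ∑ d ∈ S, walkChance S c d := by
    intro c hc
    rw [sum_walkChance_cells h (mem_corners.1 hc), hookProd_ratio h (mem_corners.1 hc),
      mul_div_cancel_left₀]
    exact Nat.cast_ne_zero.2 (hookProd_pos _).ne'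
  rw [sum_congr rfl h1, sum_comm, sum_congr rfl fun d hd => sum_walkChance h _ d hd le_rfl]
  simp

end FA.YoungHook
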